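import Fermat.Agent.S56.Euler.IndSpec

/-!
# S56 / Euler / IND — leaf KEY (helper7)

`key_of : CompSeriesStatement → UniqStatement → KeyStatement`.

Composition factors of all `W i`, indexed by `Ω = Σ i, Fin (r i)`; the setoid `RepIso` on `Ω`;
representatives `S q` of the classes; multiplicities by summing over the fibres.  Additive
invariants and characteristic polynomials are isomorphism invariant.
-/

set_option autoImplicit false

open Polynomial

noncomputable section

namespace Fermat.Agent.S56.Euler.H7

open Fermat.Agent.S56.Euler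

variable {k G : Type} [Field k] [Group G]

/-! ### `RepIso` is an equivalence relation, invariance -/

theorem repIso_refl (A : FDRepData k G) : RepIso A A :=
  ⟨LinearEquiv.refl k A.V, fun _ _ => rfl⟩

theorem repIso_symm {A B : FDRepData k G} (h : RepIso A B) : RepIso B A := by
  obtain ⟨e, he⟩ := h
  refine ⟨e.symm, fun g b => ?_⟩
  apply e.injective
  rw [he, LinearEquiv.apply_symm_apply, LinearEquiv.apply_symm_apply]

theorem repIso_trans {A B C : FDRepData k G} (h : RepIso A B) (h' : RepIso B C) :
    RepIso A C := by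
  obtain ⟨e, he⟩ := h
  obtain ⟨e', he'⟩ := h'
  exact ⟨e.trans e', fun g a => by
    rw [LinearEquiv.trans_apply, LinearEquiv.trans_apply, he, he']⟩

/-- Isomorphic representations have the same characteristic polynomials. -/
theorem charpoly_eq_of_repIso {A B : FDRepData k G} (h : RepIso A B) (g : G) :
    LinearMap.charpoly (A.ρ g) = LinearMap.charpoly (B.ρ g) := by
  obtain ⟨e, he⟩ := h
  rw [← LinearEquiv.charpoly_conj e (A.ρ g)]
  congr 1
  apply LinearMap.ext
  intro b
  rw [LinearEquiv.conj_apply_apply, he, LinearEquiv.apply_symm_apply]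

/-- The zero representation. -/
def zeroRep (k G : Type) [Field k] [Group G] : FDRepData k G where
  V := PUnit
  ρ := 1

theorem subsingleton_zeroRep : Subsingleton (zeroRep k G).V :=
  inferInstanceAs (Subsingleton PUnit)

/-- Additive invariants vanish on the zero representation. -/
theorem additive_zeroRep {f : RepInv k G} (hf : IsAdditiveInv f) : f (zeroRep k G) = 0 := by
  have := subsingleton_zeroRep (k := k) (G := G)
  have h := hf (zeroRep k G) (zeroRep k G) (zeroRep k G) 0 0
    { equivar_i := fun _ _ => rfl
      equivar_q := fun _ _ => rfl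
      inj := fun _ _ _ => Subsingleton.elim _ _
      surj := fun c => ⟨c, Subsingleton.elim _ _⟩
      exact := by
        ext x
        simp only [LinearMap.mem_range, LinearMap.mem_ker, LinearMap.zero_apply, exists_const]
        exact ⟨fun _ => trivial, fun _ => Subsingleton.elim _ _⟩ }
  linarith

/-- Additive invariants are isomorphism invariant. -/
theorem additive_eq_of_repIso {f : RepInv k G} (hf : IsAdditiveInv f) {A B : FDRepData k G}
    (h : RepIso A B) : f A = f B := by
  obtain ⟨e, he⟩ := h
  have := subsingleton_zeroRep (k := k) (G := G)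
  have h1 := hf (zeroRep k G) A B 0 e.toLinearMap
    { equivar_i := fun g a => by
        rw [LinearMap.zero_apply, LinearMap.zero_apply, map_zero]
      equivar_q := fun g a => he g a
      inj := fun _ _ _ => Subsingleton.elim _ _
      surj := e.surjective
      exact := by
        rw [LinearMap.range_zero]
        exact (LinearMap.ker_eq_bot.mpr e.injective).symm }
  rw [additive_zeroRep hf, zero_add] at h1
  exact h1

/-! ### The main glue -/

/-- **KEY** from COMP and UNIQ. -/
theorem key_of (hComp : CompSeriesStatement) (hUniq : UniqStatement) : KeyStatement := by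
  intro p _ G _ _ I _ W n n' hprod f hf
  classical
  -- composition factors
  choose r T hTsimple hTadd hTchar using fun i => hComp (ZMod p) G (W i)
  let Ω : Type := Σ i : I, Fin (r i)
  let TΩ : Ω → FDRepData (ZMod p) G := fun ω => T ω.1 ω.2
  let s : Setoid Ω :=
    { r := fun ω ω' => RepIso (TΩ ω) (TΩ ω')
      iseqv := ⟨fun ω => repIso_refl _, fun h => repIso_symm h, fun h h' => repIso_trans h h'⟩ }
  let Q : Type := Quotient s
  let S : Q → FDRepData (ZMod p) G := fun q => TΩ (Quotient.out q)
  have hSsimple : ∀ q, IsSimpleRep (S q) := fun q => hTsimple _ _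
  have hSinj : ∀ q q', RepIso (S q) (S q') → q = q' := by
    intro q q' h
    have h1 : (⟦Quotient.out q⟧ : Q) = ⟦Quotient.out q'⟧ := Quotient.sound h
    rwa [Quotient.out_eq, Quotient.out_eq] at h1
  have hiso : ∀ ω : Ω, RepIso (TΩ ω) (S ⟦ω⟧) := fun ω =>
    repIso_symm (Quotient.exact (Quotient.out_eq (⟦ω⟧ : Q)))
  -- multiplicities
  let mult : (I → ℕ) → Q → ℕ := fun a q =>
    ∑ ω ∈ Finset.univ.filter (fun ω : Ω => (⟦ω⟧ : Q) = q), a ω.1
  -- products of characteristic polynomials
  have hchar : ∀ (a : I → ℕ) (g : G),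
      ∏ i, LinearMap.charpoly ((W i).ρ g) ^ a i =
        ∏ q, LinearMap.charpoly ((S q).ρ g) ^ mult a q := by
    intro a g
    calc ∏ i, LinearMap.charpoly ((W i).ρ g) ^ a i
        = ∏ i, ∏ j, LinearMap.charpoly ((T i j).ρ g) ^ a i := by
          refine Finset.prod_congr rfl fun i _ => ?_
          rw [hTchar i g, Finset.prod_pow]
      _ = ∏ ω : Ω, LinearMap.charpoly ((TΩ ω).ρ g) ^ a ω.1 := by
          rw [← Finset.univ_sigma_univ, Finset.prod_sigma]
      _ = ∏ q, ∏ ω ∈ Finset.univ.filter (fun ω : Ω => (⟦ω⟧ : Q) = q),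
            LinearMap.charpoly ((TΩ ω).ρ g) ^ a ω.1 :=
          (Finset.prod_fiberwise Finset.univ (fun ω : Ω => (⟦ω⟧ : Q)) _).symm
      _ = ∏ q, LinearMap.charpoly ((S q).ρ g) ^ mult a q := by
          refine Finset.prod_congr rfl fun q _ => ?_
          rw [← Finset.prod_pow_eq_pow_sum]
          refine Finset.prod_congr rfl fun ω hω => ?_
          rw [Finset.mem_filter] at hω
          rw [charpoly_eq_of_repIso (hiso ω) g, hω.2]
  -- sums of the invariant
  have hsum : ∀ a : I → ℕ,
      ∑ i, (a i : ℤ) * f (W i) = ∑ q, (mult a q : ℤ) * f (S q) := by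
    intro a
    calc ∑ i, (a i : ℤ) * f (W i)
        = ∑ i, ∑ j, (a i : ℤ) * f (T i j) := by
          refine Finset.sum_congr rfl fun i _ => ?_
          rw [hTadd i f hf, Finset.mul_sum]
      _ = ∑ ω : Ω, (a ω.1 : ℤ) * f (TΩ ω) := by
          rw [← Finset.univ_sigma_univ, Finset.sum_sigma]
      _ = ∑ q, ∑ ω ∈ Finset.univ.filter (fun ω : Ω => (⟦ω⟧ : Q) = q),
            (a ω.1 : ℤ) * f (TΩ ω) :=
          (Finset.sum_fiberwise Finset.univ (fun ω : Ω => (⟦ω⟧ : Q)) _).symm
      _ = ∑ q, (mult a q : ℤ) * f (S q) := by
          refine Finset.sum_congr rfl fun q _ => ?_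
          simp only [mult]
          rw [Nat.cast_sum, Finset.sum_mul]
          refine Finset.sum_congr rfl fun ω hω => ?_
          rw [Finset.mem_filter] at hω
          rw [additive_eq_of_repIso hf (hiso ω), hω.2]
  -- uniqueness of the multiplicities
  have hm : mult n = mult n' := by
    apply hUniq p G Q S hSsimple hSinj
    intro g hg
    rw [← hchar n g, ← hchar n' g]
    exact hprod g hg
  rw [hsum n, hsum n', hm]

end Fermat.Agent.S56.Euler.H7

end
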